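import Fermat.Agent.S31.H622.Pet

/-!
# Row S31, piece SS (helper622) — from self-adjointness of `T_ℓ` to reducedness

If every `T_ℓ` (`ℓ ∤ N`) is symmetric for the Petersson product, the Hecke algebra away from a set
`S` containing the primes of `N` is reduced.
-/

set_option autoImplicit false
set_option linter.unusedSectionVars false

open UpperHalfPlane CongruenceSubgroup MeasureTheory
open scoped MatrixGroups ModularForm ComplexConjugate

namespace Fermat.Agent.S31.H622

variable (N : ℕ) [NeZero N]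

/-- Symmetric operators for the Petersson product. -/
def IsPetSymm (X : Module.End ℂ (CuspForm (Gamma0 N) 2)) : Prop :=
  ∀ f g, petC N (X f) g = petC N f (X g)

theorem petC_zero_right (f : CuspForm (Gamma0 N) 2) : petC N f 0 = 0 := by
  have h := petC_smul_right N 0 f 0
  rwa [zero_smul, zero_mul] at h

theorem isPetSymm_add {X Y : Module.End ℂ (CuspForm (Gamma0 N) 2)} (hX : IsPetSymm N X)
    (hY : IsPetSymm N Y) : IsPetSymm N (X + Y) := by
  intro f g
  rw [LinearMap.add_apply, LinearMap.add_apply, petC_add_left, petC_add_right, hX f g, hY f g]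

theorem isPetSymm_algebraMap (n : ℤ) :
    IsPetSymm N (algebraMap ℤ (Module.End ℂ (CuspForm (Gamma0 N) 2)) n) := by
  intro f g
  have h : ∀ f : CuspForm (Gamma0 N) 2,
      (algebraMap ℤ (Module.End ℂ (CuspForm (Gamma0 N) 2)) n) f = (n : ℂ) • f := by
    intro f
    rw [Algebra.algebraMap_eq_smul_one, LinearMap.smul_apply, Module.End.one_apply,
      Int.cast_smul_eq_zsmul]
  rw [h, h, petC_smul_left, petC_smul_right, map_intCast]

theorem isPetSymm_mul_of_commute {X Y : Module.End ℂ (CuspForm (Gamma0 N) 2)} (hX : IsPetSymm N X)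
    (hY : IsPetSymm N Y) (hc : X * Y = Y * X) : IsPetSymm N (X * Y) := by
  intro f g
  calc petC N ((X * Y) f) g = petC N (X (Y f)) g := rfl
    _ = petC N (Y f) (X g) := hX _ _
    _ = petC N f (Y (X g)) := hY _ _
    _ = petC N f ((Y * X) g) := rfl
    _ = petC N f ((X * Y) g) := by rw [hc]

theorem isPetSymm_of_mem_heckeAlgebra (S : Set ℕ)
    (hNS : ∀ q : ℕ, q.Prime → q ∣ N → q ∈ S)
    (hsa : ∀ (ℓ : ℕ) (hℓ : ℓ.Prime) (hℓN : ¬ ℓ ∣ N), IsPetSymm N (CuspForm.heckeTLin 2 hℓ hℓN))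
    {X : Module.End ℂ (CuspForm (Gamma0 N) 2)} (hX : X ∈ CuspForm.heckeAlgebra N 2 S) :
    IsPetSymm N X := by
  unfold CuspForm.heckeAlgebra at hX
  induction hX using Algebra.adjoin_induction with
  | mem x hx =>
    rcases hx with ⟨ℓ, hℓ, hℓN, -, rfl⟩ | ⟨q, hqN, hq, hqS, rfl⟩
    · exact hsa ℓ hℓ hℓN
    · exact absurd (hNS q hq hqN) hqS
  | algebraMap n => exact isPetSymm_algebraMap N n
  | add x y hx hy ihx ihy => exact isPetSymm_add N ihx ihy
  | mul x y hx hy ihx ihy =>
    refine isPetSymm_mul_of_commute N ihx ihy ?_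
    have h := mul_comm (⟨x, hx⟩ : CuspForm.heckeAlgebra N 2 S) ⟨y, hy⟩
    exact congrArg Subtype.val h

theorem isReduced_of_selfAdjoint (S : Set ℕ)
    (hNS : ∀ q : ℕ, q.Prime → q ∣ N → q ∈ S)
    (hsa : ∀ (ℓ : ℕ) (hℓ : ℓ.Prime) (hℓN : ¬ ℓ ∣ N), IsPetSymm N (CuspForm.heckeTLin 2 hℓ hℓN)) :
    IsReduced (CuspForm.heckeAlgebra N 2 S) := by
  rw [isReduced_iff_pow_one_lt 2 one_lt_two]
  intro X hX
  have hsym := isPetSymm_of_mem_heckeAlgebra N S hNS hsa X.2
  have h2 : (X : Module.End ℂ (CuspForm (Gamma0 N) 2)) * X = 0 := by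
    have := congrArg Subtype.val hX
    rwa [pow_two] at this
  apply Subtype.ext
  apply LinearMap.ext
  intro f
  apply eq_zero_of_petC_self_eq_zero N
  rw [hsym, ← Module.End.mul_apply, h2, LinearMap.zero_apply, petC_zero_right]

end Fermat.Agent.S31.H622
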