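import Mathlib
import Fermat.Prelude.Def_CuspForm_HeckeAlgebra
import Fermat.Agent.S21.IntA
import Fermat.Agent.S21.Partition

/-!
# Row S31, piece SS (helper622) — the `Γ₀(N)`-partition of unity on `ℍ`

`chiH N : ℍ → ℝ` is continuous, takes values in `[0,1]`, satisfies `∑_{γ ∈ Γ₀(N)} chiH (γ • τ) = 1`
and is integrable for the hyperbolic measure of `ℍ`.
-/

set_option autoImplicit false
set_option linter.style.haveILetI false

open UpperHalfPlane CongruenceSubgroup MeasureTheory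
open scoped MatrixGroups ModularForm

namespace Fermat.Agent.S31.H622

open Fermat.Agent.S21

/-- A fixed smooth `SL(2,ℤ)`-partition of unity on the upper half plane. -/
noncomputable def chi1 : ℂ → ℝ := Classical.choose exists_partition_SL2Z

theorem chi1_spec : IsSL2ZPartition chi1 := by
  obtain ⟨h1, h2, h3, h4, h5⟩ := Classical.choose_spec exists_partition_SL2Z
  exact ⟨h1, h2, h3, h4, h5⟩

/-- The `Γ₀(N)`-partition of unity as a function on `ℍ`. -/
noncomputable def chiH (N : ℕ) (τ : ℍ) : ℝ := chi N chi1 (τ : ℂ)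

theorem mob_coe' (g : SL(2, ℤ)) (w : ℍ) : mob g (w : ℂ) = ((g • w : ℍ) : ℂ) := by
  simp [mob]

instance countable_SL2Z : Countable SL(2, ℤ) :=
  haveI : Countable (Matrix (Fin 2) (Fin 2) ℤ) := inferInstanceAs (Countable (Fin 2 → Fin 2 → ℤ))
  Subtype.val_injective.countable

section

variable (N : ℕ) [NeZero N]

theorem chiH_nonneg (τ : ℍ) : 0 ≤ chiH N τ := chi_nonneg N chi1_spec _

theorem chiH_le_one (τ : ℍ) : chiH N τ ≤ 1 := chi_le_one N chi1_spec _

theorem continuous_chiH : Continuous (chiH N) := by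
  have h := continuousOn_chi N chi1_spec
  exact h.comp_continuous UpperHalfPlane.continuous_coe fun τ => coe_mem_Uhp τ

theorem measurable_chiH : Measurable (chiH N) := (continuous_chiH N).measurable

theorem abs_chiH_le (τ : ℍ) : ‖chiH N τ‖ ≤ 1 := by
  rw [Real.norm_of_nonneg (chiH_nonneg N τ)]
  exact chiH_le_one N τ

/-- The defining property: the `Γ₀(N)`-translates of `chiH` sum to `1`. -/
theorem hasSum_chiH (τ : ℍ) :
    HasSum (fun γ : Gamma0 N => chiH N ((γ : SL(2, ℤ)) • τ)) 1 := by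
  have h1 := chi_sum_eq_one N chi1_spec (τ : ℂ) (coe_mem_Uhp τ)
  have hfin : (Function.support fun γ : Gamma0 N => chiH N ((γ : SL(2, ℤ)) • τ)).Finite := by
    refine (chi_locfin N chi1_spec {(τ : ℂ)} isCompact_singleton
      (by simpa using coe_mem_Uhp τ)).subset ?_
    intro γ hγ
    refine ⟨(τ : ℂ), rfl, ?_⟩
    rw [mob_coe']
    exact hγ
  have h2 : ∑ᶠ γ : Gamma0 N, chiH N ((γ : SL(2, ℤ)) • τ) = 1 := by
    rw [← h1]
    refine finsum_congr fun γ => ?_
    rw [mob_coe']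
    rfl
  rw [← h2, finsum_eq_sum _ hfin]
  exact hasSum_sum_of_ne_finset_zero fun γ hγ => by simpa using hγ

theorem sum_chiH_le_one (s : Finset (Gamma0 N)) (τ : ℍ) :
    ∑ γ ∈ s, chiH N ((γ : SL(2, ℤ)) • τ) ≤ 1 :=
  sum_le_hasSum s (fun _ _ => chiH_nonneg N _) (hasSum_chiH N τ)

theorem exists_chiH_pos (τ : ℍ) : ∃ γ : Gamma0 N, 0 < chiH N ((γ : SL(2, ℤ)) • τ) := by
  by_contra hcon
  push Not at hcon
  have h0 : ∀ γ : Gamma0 N, chiH N ((γ : SL(2, ℤ)) • τ) = 0 := fun γ =>
    le_antisymm (hcon γ) (chiH_nonneg N _)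
  have h1 := hasSum_chiH N τ
  simp only [h0] at h1
  exact zero_ne_one (h1.unique hasSum_zero).symm

end

/-! ### Finite volume and integrability -/

/-- The cusp region `{|Re τ| ≤ 1, 1/2 < Im τ}`. -/
def cuspBox : Set ℍ := {τ | |τ.re| ≤ 1 ∧ 1 / 2 < τ.im}

theorem volume_cuspBox_lt_top : volume cuspBox < ⊤ := by
  rw [volume_eq_lintegral]
  set e := Complex.measurableEquivRealProd with he
  set G : ℝ × ℝ → ENNReal := fun p => 1 * ENNReal.ofReal (p.2 ^ (-2 : ℝ)) with hG
  have hsub : (UpperHalfPlane.coe '' cuspBox) ⊆ e ⁻¹' (Set.Icc (-1) 1 ×ˢ Set.Ioi (1 / 2)) := by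
    rintro _ ⟨τ, ⟨h1, h2⟩, rfl⟩
    have h3 := abs_le.mp h1
    refine ⟨⟨?_, ?_⟩, ?_⟩
    · exact h3.1
    · exact h3.2
    · exact h2
  have hpt : ∀ z ∈ e ⁻¹' (Set.Icc (-1 : ℝ) 1 ×ˢ Set.Ioi (1 / 2 : ℝ)),
      (((1 / ‖z.im‖₊) ^ 2 : NNReal) : ENNReal) = G (e z) := by
    intro z hz
    have hz2 : (1 / 2 : ℝ) < z.im := hz.2
    have hpos : 0 < z.im := by linarith
    simp only [hG, one_mul]
    rw [← ENNReal.ofReal_coe_nnreal]
    congr 1
    have : (e z).2 = z.im := rfl
    rw [this, Real.rpow_neg hpos.le, Real.rpow_two]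
    push_cast
    rw [Real.norm_of_nonneg hpos.le]
    simp
  calc ∫⁻ z in UpperHalfPlane.coe '' cuspBox, (((1 / ‖z.im‖₊) ^ 2 : NNReal) : ENNReal)
      ≤ ∫⁻ z in e ⁻¹' (Set.Icc (-1) 1 ×ˢ Set.Ioi (1 / 2)),
          (((1 / ‖z.im‖₊) ^ 2 : NNReal) : ENNReal) := lintegral_mono_set hsub
    _ = ∫⁻ z in e ⁻¹' (Set.Icc (-1) 1 ×ˢ Set.Ioi (1 / 2)), G (e z) :=
        setLIntegral_congr_fun (e.measurable (measurableSet_Icc.prod measurableSet_Ioi)) hpt
    _ = ∫⁻ p in Set.Icc (-1) 1 ×ˢ Set.Ioi (1 / 2), G p :=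
        Complex.volume_preserving_equiv_real_prod.setLIntegral_comp_preimage_emb
          e.measurableEmbedding G _
    _ = (∫⁻ _ in Set.Icc (-1 : ℝ) 1, 1) *
          ∫⁻ y in Set.Ioi (1 / 2 : ℝ), ENNReal.ofReal (y ^ (-2 : ℝ)) := by
        rw [Measure.volume_eq_prod, ← Measure.prod_restrict]
        have hm : Measurable fun y : ℝ => ENNReal.ofReal (y ^ (-2 : ℝ)) := by fun_prop
        exact lintegral_prod_mul (f := fun _ : ℝ => (1 : ENNReal))
          (g := fun y : ℝ => ENNReal.ofReal (y ^ (-2 : ℝ))) aemeasurable_const hm.aemeasurable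
    _ < ⊤ := by
        refine ENNReal.mul_lt_top ?_ ?_
        · simp
        · exact (integrableOn_Ioi_rpow_of_lt (by norm_num) (by norm_num)).lintegral_lt_top




theorem measurableSet_cuspBox : MeasurableSet cuspBox := by
  have h1 : MeasurableSet {τ : ℍ | |τ.re| ≤ 1} :=
    (isClosed_le (continuous_abs.comp UpperHalfPlane.continuous_re) continuous_const).measurableSet
  have h2 : MeasurableSet {τ : ℍ | 1 / 2 < τ.im} :=
    (isOpen_lt continuous_const UpperHalfPlane.continuous_im).measurableSet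
  exact h1.inter h2

/-- `chi1` on `ℍ`. -/
noncomputable def chi1H (τ : ℍ) : ℝ := chi1 (τ : ℂ)

theorem continuous_chi1H : Continuous chi1H :=
  chi1_spec.smooth.continuousOn.comp_continuous UpperHalfPlane.continuous_coe
    fun τ => coe_mem_Uhp τ

theorem chi1H_nonneg (τ : ℍ) : 0 ≤ chi1H τ := chi1_spec.nonneg _

theorem chi1H_le_one (τ : ℍ) : chi1H τ ≤ 1 := by
  have h1 := chi1_spec.sum_eq_one (τ : ℂ) (coe_mem_Uhp τ)
  have hfin := IntAAux.finite_support chi1 chi1_spec (τ : ℂ) (coe_mem_Uhp τ)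
  have h2 := single_le_finsum (1 : SL(2, ℤ)) hfin fun g => chi1_spec.nonneg _
  rw [h1] at h2
  simpa [chi1H, mob] using h2

theorem chi1H_eq_zero_of_notMem {τ : ℍ} (h : τ ∉ cuspBox) : chi1H τ = 0 := by
  by_contra h0
  exact h (chi1_spec.supp _ h0)

theorem integrable_chi1H : Integrable chi1H (volume : Measure ℍ) := by
  have h1 : IntegrableOn chi1H cuspBox volume := by
    refine Measure.integrableOn_of_bounded (M := 1) volume_cuspBox_lt_top.ne
      continuous_chi1H.aestronglyMeasurable (Filter.Eventually.of_forall fun τ => ?_)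
    rw [Real.norm_of_nonneg (chi1H_nonneg τ)]
    exact chi1H_le_one τ
  have h2 : cuspBox.indicator chi1H = chi1H := by
    funext τ
    by_cases h : τ ∈ cuspBox
    · rw [Set.indicator_of_mem h]
    · rw [Set.indicator_of_notMem h, chi1H_eq_zero_of_notMem h]
  rw [← h2]
  exact (integrable_indicator_iff measurableSet_cuspBox).mpr h1

theorem integrable_comp_smul {E : Type*} [NormedAddCommGroup E] {F : ℍ → E}
    (hF : Integrable F (volume : Measure ℍ)) (g : GL (Fin 2) ℝ) :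
    Integrable (fun τ => F (g • τ)) (volume : Measure ℍ) :=
  ((measurePreserving_smul g (volume : Measure ℍ)).integrable_comp_emb
    (MeasurableEquiv.smul g).measurableEmbedding).mpr hF

theorem integrable_chiH (N : ℕ) [NeZero N] : Integrable (chiH N) (volume : Measure ℍ) := by
  haveI : Finite (SL(2, ℤ) ⧸ Gamma0 N) := Subgroup.finite_quotient_of_finiteIndex
  letI : Fintype (SL(2, ℤ) ⧸ Gamma0 N) := Fintype.ofFinite _
  have h : chiH N = fun τ => ∑ q : SL(2, ℤ) ⧸ Gamma0 N,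
      chi1H (((Quotient.out q : SL(2, ℤ)) : GL (Fin 2) ℝ) • τ) := by
    funext τ
    rw [chiH, IntAAux.chi_of_mem N chi1 (coe_mem_Uhp τ), finsum_eq_sum_of_fintype]
    refine Finset.sum_congr rfl fun q _ => ?_
    rw [mob_coe']
    rfl
  rw [h]
  exact integrable_finsetSum _ fun q _ => integrable_comp_smul integrable_chi1H _

/-! ### Positivity of the measure on open sets -/

instance isOpenPosMeasure_uhp : (volume : Measure ℍ).IsOpenPosMeasure := by
  refine ⟨fun U hU hne => ?_⟩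
  rw [volume_eq_lintegral]
  have hopen : IsOpen (UpperHalfPlane.coe '' U) := isOpenEmbedding_coe.isOpenMap U hU
  have hpos : 0 < volume (UpperHalfPlane.coe '' U) := hopen.measure_pos volume (hne.image _)
  have hm : Measurable fun z : ℂ => (((1 / ‖z.im‖₊) ^ 2 : NNReal) : ENNReal) := by fun_prop
  refine ((setLIntegral_pos_iff hm).mpr ?_).ne'
  refine lt_of_lt_of_le hpos (measure_mono ?_)
  rintro _ ⟨τ, hτ, rfl⟩
  refine ⟨?_, ⟨τ, hτ, rfl⟩⟩
  simp only [Function.mem_support, ne_eq, ENNReal.coe_eq_zero]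
  simpa using τ.im_ne_zero

theorem eq_zero_of_integral_eq_zero {F : ℍ → ℝ} (hc : Continuous F) (h0 : ∀ τ, 0 ≤ F τ)
    (hi : Integrable F (volume : Measure ℍ)) (h : ∫ τ, F τ = 0) : ∀ τ, F τ = 0 := by
  have h1 : F =ᵐ[volume] 0 := (integral_eq_zero_iff_of_nonneg h0 hi).mp h
  have h2 : F = 0 := (hc.ae_eq_iff_eq volume continuous_const).mp h1
  exact fun τ => congrFun h2 τ

end Fermat.Agent.S31.H622
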