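import Mathlib
import Fermat.Prelude.Def_CuspForm_HeckeAlgebra

/-!
# Row S31, piece SS (helper622) — the Hecke double coset `D = {det = ℓ, N ∣ c}`

For a prime `ℓ ∤ N`, the set `D` of integer matrices of determinant `ℓ` with lower left entry
divisible by `N` is the disjoint union of the cosets `Γ₀(N) μ`, `μ ∈ {[1 j; 0 ℓ], [ℓ 0; 0 1]}`,
and is stable under the adjugate involution.
-/

set_option autoImplicit false
set_option linter.style.haveILetI false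

open CongruenceSubgroup
open scoped MatrixGroups

namespace Fermat.Agent.S31.H622

/-- Integer matrices of determinant `ℓ` with lower left entry divisible by `N`. -/
def DSet (N ℓ : ℕ) : Type :=
  {M : Matrix (Fin 2) (Fin 2) ℤ // M.det = (ℓ : ℤ) ∧ (N : ℤ) ∣ M 1 0}

/-- The standard representatives. -/
def repZ (ℓ : ℕ) : Option (Fin ℓ) → Matrix (Fin 2) (Fin 2) ℤ
  | some j => !![1, ((j : ℕ) : ℤ); 0, (ℓ : ℤ)]
  | none => !![(ℓ : ℤ), 0; 0, 1]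

theorem det_repZ (ℓ : ℕ) (r : Option (Fin ℓ)) : (repZ ℓ r).det = (ℓ : ℤ) := by
  cases r <;> simp [repZ, Matrix.det_fin_two_of]

theorem repZ_one_zero (ℓ : ℕ) (r : Option (Fin ℓ)) : repZ ℓ r 1 0 = 0 := by
  cases r <;> simp [repZ]

theorem mem_Gamma0_iff_dvd {N : ℕ} {A : SL(2, ℤ)} : A ∈ Gamma0 N ↔ (N : ℤ) ∣ A 1 0 := by
  rw [Gamma0_mem, ZMod.intCast_zmod_eq_zero_iff_dvd]

theorem sl_det (g : SL(2, ℤ)) : g 0 0 * g 1 1 - g 0 1 * g 1 0 = 1 := by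
  have h := g.det_coe
  rwa [Matrix.det_fin_two] at h

/-- The map `(r, γ) ↦ γ * repZ r`. -/
def PhiD (N ℓ : ℕ) (p : Option (Fin ℓ) × Gamma0 N) : DSet N ℓ :=
  ⟨(p.2 : SL(2, ℤ)).val * repZ ℓ p.1, by
    rw [Matrix.det_mul, det_repZ, (p.2 : SL(2, ℤ)).det_coe, one_mul], by
    have h := mem_Gamma0_iff_dvd.mp p.2.2
    rw [Matrix.mul_apply, Fin.sum_univ_two, repZ_one_zero, mul_zero, add_zero]
    exact Dvd.dvd.mul_right h _⟩

theorem PhiD_val (N ℓ : ℕ) (p : Option (Fin ℓ) × Gamma0 N) :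
    (PhiD N ℓ p).val = (p.2 : SL(2, ℤ)).val * repZ ℓ p.1 := rfl

/-- The adjugate involution on `D`. -/
def adjD (N ℓ : ℕ) (M : DSet N ℓ) : DSet N ℓ :=
  ⟨Matrix.adjugate M.val, by
    rw [Matrix.det_adjugate, Fintype.card_fin, show 2 - 1 = 1 from rfl, pow_one, M.2.1], by
    rw [Matrix.adjugate_fin_two]
    simpa using M.2.2⟩

theorem adjD_val (N ℓ : ℕ) (M : DSet N ℓ) : (adjD N ℓ M).val = Matrix.adjugate M.val := rfl

theorem adjD_adjD (N ℓ : ℕ) (M : DSet N ℓ) : adjD N ℓ (adjD N ℓ M) = M := by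
  apply Subtype.ext
  rw [adjD_val, adjD_val, Matrix.adjugate_fin_two, Matrix.adjugate_fin_two]
  ext i j
  fin_cases i <;> fin_cases j <;> simp

/-- The adjugate as an equivalence. -/
def adjDEquiv (N ℓ : ℕ) : DSet N ℓ ≃ DSet N ℓ where
  toFun := adjD N ℓ
  invFun := adjD N ℓ
  left_inv := adjD_adjD N ℓ
  right_inv := adjD_adjD N ℓ

/-! ### Bijectivity of `PhiD` -/

theorem sl_mul_repZ_some (ℓ : ℕ) (σ : SL(2, ℤ)) (j : Fin ℓ) :
    σ.val * repZ ℓ (some j) =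
      !![σ 0 0, σ 0 0 * ((j : ℕ) : ℤ) + σ 0 1 * (ℓ : ℤ);
         σ 1 0, σ 1 0 * ((j : ℕ) : ℤ) + σ 1 1 * (ℓ : ℤ)] := by
  ext a b
  fin_cases a <;> fin_cases b <;> simp [repZ, Matrix.mul_apply, Fin.sum_univ_two]

theorem sl_mul_repZ_none (ℓ : ℕ) (σ : SL(2, ℤ)) :
    σ.val * repZ ℓ none = !![σ 0 0 * (ℓ : ℤ), σ 0 1; σ 1 0 * (ℓ : ℤ), σ 1 1] := by
  ext a b
  fin_cases a <;> fin_cases b <;> simp [repZ, Matrix.mul_apply, Fin.sum_univ_two]

theorem mat_eq_iff {a b c d a' b' c' d' : ℤ} :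
    (!![a, b; c, d] : Matrix (Fin 2) (Fin 2) ℤ) = !![a', b'; c', d'] ↔
      a = a' ∧ b = b' ∧ c = c' ∧ d = d' := by
  constructor
  · intro h
    refine ⟨?_, ?_, ?_, ?_⟩
    · simpa using congrFun (congrFun h 0) 0
    · simpa using congrFun (congrFun h 0) 1
    · simpa using congrFun (congrFun h 1) 0
    · simpa using congrFun (congrFun h 1) 1
  · rintro ⟨rfl, rfl, rfl, rfl⟩
    rfl

theorem sl_eq_one_of_entries (σ : SL(2, ℤ)) (h00 : σ 0 0 = 1) (h01 : σ 0 1 = 0) (h10 : σ 1 0 = 0)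
    (h11 : σ 1 1 = 1) : σ = 1 := by
  ext a b
  fin_cases a <;> fin_cases b <;> simp [h00, h01, h10, h11]

theorem repZ_unique {ℓ : ℕ} (hℓ : 2 ≤ ℓ) (σ : SL(2, ℤ)) (r r' : Option (Fin ℓ))
    (h : σ.val * repZ ℓ r = repZ ℓ r') : r = r' ∧ σ = 1 := by
  have hℓ0 : (ℓ : ℤ) ≠ 0 := by exact_mod_cast (by omega : ℓ ≠ 0)
  have hℓ2 : (2 : ℤ) ≤ (ℓ : ℤ) := by exact_mod_cast hℓ
  cases r with
  | none =>
    rw [sl_mul_repZ_none] at h
    cases r' with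
    | none =>
      obtain ⟨h1, h2, h3, h4⟩ := mat_eq_iff.mp h
      refine ⟨rfl, sl_eq_one_of_entries σ ?_ h2 ?_ h4⟩
      · exact mul_right_cancel₀ hℓ0 (by rw [h1, one_mul])
      · exact (mul_eq_zero.mp h3).resolve_right hℓ0
    | some j' =>
      obtain ⟨h1, h2, h3, h4⟩ := mat_eq_iff.mp h
      exfalso
      have : (ℓ : ℤ) ∣ 1 := ⟨σ 0 0, by linarith⟩
      have := Int.le_of_dvd one_pos this
      omega
  | some j =>
    rw [sl_mul_repZ_some] at h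
    cases r' with
    | none =>
      obtain ⟨h1, h2, h3, h4⟩ := mat_eq_iff.mp h
      exfalso
      rw [h3, zero_mul, zero_add] at h4
      have : (ℓ : ℤ) ∣ 1 := ⟨σ 1 1, by linarith⟩
      have := Int.le_of_dvd one_pos this
      omega
    | some j' =>
      obtain ⟨h1, h2, h3, h4⟩ := mat_eq_iff.mp h
      rw [h3, zero_mul, zero_add] at h4
      have h11 : σ 1 1 = 1 := mul_right_cancel₀ hℓ0 (by rw [h4, one_mul])
      rw [h1, one_mul] at h2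
      have hj : (j : ℕ) < ℓ := j.2
      have hj' : (j' : ℕ) < ℓ := j'.2
      have ht : σ 0 1 = 0 := by
        by_contra hne
        have h5 : (ℓ : ℤ) ≤ |σ 0 1 * (ℓ : ℤ)| := by
          rw [abs_mul, abs_of_nonneg (by positivity : (0 : ℤ) ≤ (ℓ : ℤ))]
          have : 1 ≤ |σ 0 1| := Int.one_le_abs hne
          nlinarith
        have h6 : |σ 0 1 * (ℓ : ℤ)| < (ℓ : ℤ) := by
          rw [abs_lt]
          constructor <;> omega
        omega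
      rw [ht, zero_mul, add_zero] at h2
      refine ⟨?_, sl_eq_one_of_entries σ h1 ht h3 h11⟩
      congr 1
      exact Fin.ext (by exact_mod_cast h2)

theorem PhiD_injective (N : ℕ) {ℓ : ℕ} (hℓ : 2 ≤ ℓ) : Function.Injective (PhiD N ℓ) := by
  rintro ⟨r, γ⟩ ⟨r', γ'⟩ h
  have h1 : (γ : SL(2, ℤ)).val * repZ ℓ r = (γ' : SL(2, ℤ)).val * repZ ℓ r' :=
    congrArg Subtype.val h
  have h2 : ((γ'⁻¹ * γ : Gamma0 N) : SL(2, ℤ)).val * repZ ℓ r = repZ ℓ r' := by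
    have h3 : ((γ'⁻¹ * γ : Gamma0 N) : SL(2, ℤ)).val
        = ((γ' : SL(2, ℤ))⁻¹).val * (γ : SL(2, ℤ)).val := by
      simp
    rw [h3, Matrix.mul_assoc, h1, ← Matrix.mul_assoc]
    have h4 : ((γ' : SL(2, ℤ))⁻¹).val * (γ' : SL(2, ℤ)).val = 1 := by
      rw [← Matrix.SpecialLinearGroup.coe_mul, inv_mul_cancel, Matrix.SpecialLinearGroup.coe_one]
    rw [h4, Matrix.one_mul]
  obtain ⟨hr, hσ⟩ := repZ_unique hℓ _ r r' h2
  have h5 : γ'⁻¹ * γ = 1 := Subtype.ext hσ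
  have h6 : γ = γ' := by
    have := congrArg (fun x => γ' * x) h5
    simpa using this
  rw [hr, h6]


theorem exists_j_of_det {ℓ : ℕ} (hℓ : ℓ.Prime) (a b c d : ℤ) (hdet : a * d - b * c = (ℓ : ℤ))
    (hac : ¬ ((ℓ : ℤ) ∣ a ∧ (ℓ : ℤ) ∣ c)) :
    ∃ j : Fin ℓ, (ℓ : ℤ) ∣ b - a * ((j : ℕ) : ℤ) ∧ (ℓ : ℤ) ∣ d - c * ((j : ℕ) : ℤ) := by
  haveI : Fact ℓ.Prime := ⟨hℓ⟩
  have hdet' : (a : ZMod ℓ) * (d : ZMod ℓ) - (b : ZMod ℓ) * (c : ZMod ℓ) = 0 := by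
    have := congrArg (Int.cast : ℤ → ZMod ℓ) hdet
    push_cast at this
    rw [this]
    exact ZMod.natCast_self ℓ
  have key : ∃ j : ZMod ℓ, (b : ZMod ℓ) - (a : ZMod ℓ) * j = 0 ∧
      (d : ZMod ℓ) - (c : ZMod ℓ) * j = 0 := by
    by_cases ha : (a : ZMod ℓ) = 0
    · have hc : (c : ZMod ℓ) ≠ 0 := by
        intro hc
        exact hac ⟨(ZMod.intCast_zmod_eq_zero_iff_dvd a ℓ).mp ha,
          (ZMod.intCast_zmod_eq_zero_iff_dvd c ℓ).mp hc⟩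
      have hb : (b : ZMod ℓ) = 0 := by
        rw [ha, zero_mul, zero_sub, neg_eq_zero] at hdet'
        exact (mul_eq_zero.mp hdet').resolve_right hc
      refine ⟨(d : ZMod ℓ) / (c : ZMod ℓ), ?_, ?_⟩
      · rw [ha, hb]; ring
      · field_simp
        ring
    · refine ⟨(b : ZMod ℓ) / (a : ZMod ℓ), ?_, ?_⟩
      · field_simp
        ring
      · field_simp
        linear_combination hdet'
  obtain ⟨j, hj1, hj2⟩ := key
  refine ⟨⟨j.val, ZMod.val_lt j⟩, ?_, ?_⟩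
  · apply (ZMod.intCast_zmod_eq_zero_iff_dvd _ ℓ).mp
    push_cast
    rw [ZMod.natCast_zmod_val]
    exact hj1
  · apply (ZMod.intCast_zmod_eq_zero_iff_dvd _ ℓ).mp
    push_cast
    rw [ZMod.natCast_zmod_val]
    exact hj2

theorem PhiD_surjective (N : ℕ) {ℓ : ℕ} (hℓ : ℓ.Prime) (hℓN : ¬ ℓ ∣ N) :
    Function.Surjective (PhiD N ℓ) := by
  rintro ⟨M, hdet, hN⟩
  have hℓ0 : (ℓ : ℤ) ≠ 0 := by exact_mod_cast hℓ.ne_zero
  rw [Matrix.det_fin_two] at hdet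
  by_cases hac : (ℓ : ℤ) ∣ M 0 0 ∧ (ℓ : ℤ) ∣ M 1 0
  · obtain ⟨⟨a', ha'⟩, ⟨c', hc'⟩⟩ := hac
    have hdet1 : a' * M 1 1 - M 0 1 * c' = 1 := by
      apply mul_left_cancel₀ hℓ0
      rw [ha', hc'] at hdet
      linear_combination hdet
    have hcop : IsCoprime (N : ℤ) (ℓ : ℤ) :=
      Nat.isCoprime_iff_coprime.mpr ((Nat.Prime.coprime_iff_not_dvd hℓ).mpr hℓN).symm
    have hNc' : (N : ℤ) ∣ c' := by
      rw [hc'] at hN
      exact hcop.dvd_of_dvd_mul_left hN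
    let γ : SL(2, ℤ) := ⟨!![a', M 0 1; c', M 1 1], by rw [Matrix.det_fin_two_of]; exact hdet1⟩
    have hγ : γ ∈ Gamma0 N := mem_Gamma0_iff_dvd.mpr (by simpa [γ] using hNc')
    refine ⟨(none, ⟨γ, hγ⟩), Subtype.ext ?_⟩
    show γ.val * repZ ℓ none = M
    ext i j
    fin_cases i <;> fin_cases j <;>
      simp [γ, repZ, Matrix.mul_apply, Fin.sum_univ_two, ha', hc', mul_comm]
  · obtain ⟨j, ⟨t, ht⟩, ⟨v, hv⟩⟩ := exists_j_of_det hℓ (M 0 0) (M 0 1) (M 1 0) (M 1 1) hdet hac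
    have hdet1 : M 0 0 * v - t * M 1 0 = 1 := by
      apply mul_left_cancel₀ hℓ0
      linear_combination hdet - (M 0 0) * hv + (M 1 0) * ht
    let γ : SL(2, ℤ) := ⟨!![M 0 0, t; M 1 0, v], by rw [Matrix.det_fin_two_of]; exact hdet1⟩
    have hγ : γ ∈ Gamma0 N := mem_Gamma0_iff_dvd.mpr (by simpa [γ] using hN)
    refine ⟨(some j, ⟨γ, hγ⟩), Subtype.ext ?_⟩
    show γ.val * repZ ℓ (some j) = M
    ext i k
    fin_cases i <;> fin_cases k <;>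
      simp [γ, repZ, Matrix.mul_apply, Fin.sum_univ_two]
    · linear_combination -ht
    · linear_combination -hv

theorem PhiD_bijective (N : ℕ) {ℓ : ℕ} (hℓ : ℓ.Prime) (hℓN : ¬ ℓ ∣ N) :
    Function.Bijective (PhiD N ℓ) :=
  ⟨PhiD_injective N hℓ.two_le, PhiD_surjective N hℓ hℓN⟩

end Fermat.Agent.S31.H622
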