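import Fermat.Agent.S31.H622.Coset

/-!
# Row S31, piece SS (helper622) — integer matrices of nonzero determinant inside `GL(2,ℝ)`
-/

set_option autoImplicit false

open CongruenceSubgroup UpperHalfPlane Matrix.SpecialLinearGroup
open scoped MatrixGroups ModularForm

namespace Fermat.Agent.S31.H622

/-- The real matrix of an integer matrix. -/
def matR (M : Matrix (Fin 2) (Fin 2) ℤ) : Matrix (Fin 2) (Fin 2) ℝ := M.map (Int.castRingHom ℝ)

theorem matR_apply (M : Matrix (Fin 2) (Fin 2) ℤ) (i j : Fin 2) : matR M i j = (M i j : ℝ) := rfl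

theorem det_matR (M : Matrix (Fin 2) (Fin 2) ℤ) : (matR M).det = (M.det : ℝ) := by
  rw [Matrix.det_fin_two, Matrix.det_fin_two]
  simp only [matR_apply]
  push_cast
  ring

theorem matR_mul (M₁ M₂ : Matrix (Fin 2) (Fin 2) ℤ) : matR (M₁ * M₂) = matR M₁ * matR M₂ := by
  ext i j
  simp only [matR_apply, Matrix.mul_apply, Fin.sum_univ_two]
  push_cast
  ring

/-- An integer matrix of nonzero determinant as an element of `GL(2,ℝ)` (junk value `1` if the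
determinant vanishes). -/
noncomputable def glZ (M : Matrix (Fin 2) (Fin 2) ℤ) : GL (Fin 2) ℝ :=
  if h : M.det = 0 then 1
  else Matrix.GeneralLinearGroup.mkOfDetNeZero (matR M) (by
    rw [det_matR]; exact_mod_cast h)

theorem glZ_val {M : Matrix (Fin 2) (Fin 2) ℤ} (h : M.det ≠ 0) :
    ((glZ M : GL (Fin 2) ℝ) : Matrix (Fin 2) (Fin 2) ℝ) = matR M := by
  rw [glZ, dif_neg h]
  rfl

theorem glZ_apply {M : Matrix (Fin 2) (Fin 2) ℤ} (h : M.det ≠ 0) (i j : Fin 2) :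
    (glZ M : GL (Fin 2) ℝ) i j = (M i j : ℝ) := by
  have := glZ_val h
  exact congrFun (congrFun this i) j

theorem det_glZ {M : Matrix (Fin 2) (Fin 2) ℤ} (h : M.det ≠ 0) :
    ((glZ M).det : ℝ) = (M.det : ℝ) := by
  rw [Matrix.GeneralLinearGroup.val_det_apply, glZ_val h, det_matR]

theorem glZ_mul {M₁ M₂ : Matrix (Fin 2) (Fin 2) ℤ} (h₁ : M₁.det ≠ 0) (h₂ : M₂.det ≠ 0) :
    glZ (M₁ * M₂) = glZ M₁ * glZ M₂ := by
  have h : (M₁ * M₂).det ≠ 0 := by rw [Matrix.det_mul]; exact mul_ne_zero h₁ h₂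
  apply Units.ext
  rw [Units.val_mul, glZ_val h, glZ_val h₁, glZ_val h₂, matR_mul]

theorem glZ_sl (γ : SL(2, ℤ)) : glZ γ.val = mapGL ℝ γ := by
  have h : γ.val.det ≠ 0 := by rw [γ.det_coe]; exact one_ne_zero
  apply Units.ext
  rw [glZ_val h]
  ext i j
  simp [matR_apply]

theorem glZ_repZ_some {ℓ : ℕ} (hℓ : ℓ ≠ 0) (j : Fin ℓ) :
    glZ (repZ ℓ (some j)) = ModularForm.heckeMatrix ℓ j := by
  have h : (repZ ℓ (some j)).det ≠ 0 := by rw [det_repZ]; exact_mod_cast hℓ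
  apply Units.ext
  rw [glZ_val h, ModularForm.val_heckeMatrix hℓ]
  ext a b
  fin_cases a <;> fin_cases b <;> simp [matR_apply, repZ]

theorem glZ_repZ_none {ℓ : ℕ} (hℓ : ℓ ≠ 0) :
    glZ (repZ ℓ none) = ModularForm.heckeDiagMatrix ℓ := by
  have h : (repZ ℓ none).det ≠ 0 := by rw [det_repZ]; exact_mod_cast hℓ
  apply Units.ext
  rw [glZ_val h, ModularForm.val_heckeDiagMatrix hℓ]
  ext a b
  fin_cases a <;> fin_cases b <;> simp [matR_apply, repZ]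

/-- The representatives in `GL(2,ℝ)`. -/
noncomputable def repGL (ℓ : ℕ) (r : Option (Fin ℓ)) : GL (Fin 2) ℝ := glZ (repZ ℓ r)

/-- The adjugate representatives in `GL(2,ℝ)`. -/
noncomputable def repGL' (ℓ : ℕ) (r : Option (Fin ℓ)) : GL (Fin 2) ℝ :=
  glZ (Matrix.adjugate (repZ ℓ r))

theorem det_adjugate_two (M : Matrix (Fin 2) (Fin 2) ℤ) : (Matrix.adjugate M).det = M.det := by
  rw [Matrix.det_adjugate, Fintype.card_fin, show 2 - 1 = 1 from rfl, pow_one]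

theorem glZ_PhiD (N : ℕ) {ℓ : ℕ} (hℓ : ℓ ≠ 0) (r : Option (Fin ℓ)) (γ : Gamma0 N) :
    glZ (PhiD N ℓ (r, γ)).val = mapGL ℝ (γ : SL(2, ℤ)) * repGL ℓ r := by
  have h1 : (γ : SL(2, ℤ)).val.det ≠ 0 := by rw [(γ : SL(2, ℤ)).det_coe]; exact one_ne_zero
  have h2 : (repZ ℓ r).det ≠ 0 := by rw [det_repZ]; exact_mod_cast hℓ
  rw [PhiD_val, glZ_mul h1 h2, glZ_sl, repGL]

theorem glZ_adjD_PhiD (N : ℕ) {ℓ : ℕ} (hℓ : ℓ ≠ 0) (r : Option (Fin ℓ)) (γ : Gamma0 N) :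
    glZ (adjD N ℓ (PhiD N ℓ (r, γ))).val = repGL' ℓ r * (mapGL ℝ (γ : SL(2, ℤ)))⁻¹ := by
  have h1 : (Matrix.adjugate (γ : SL(2, ℤ)).val).det ≠ 0 := by
    rw [det_adjugate_two, (γ : SL(2, ℤ)).det_coe]; exact one_ne_zero
  have h2 : (Matrix.adjugate (repZ ℓ r)).det ≠ 0 := by
    rw [det_adjugate_two, det_repZ]; exact_mod_cast hℓ
  rw [adjD_val, PhiD_val, Matrix.adjugate_mul_distrib, glZ_mul h2 h1, repGL', ← map_inv,
    ← glZ_sl, Matrix.SpecialLinearGroup.coe_inv]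

/-! ### Scalar matrices -/

/-- The scalar matrix `c • 1`. -/
def scalZ (c : ℤ) : Matrix (Fin 2) (Fin 2) ℤ := !![c, 0; 0, c]

theorem det_scalZ (c : ℤ) : (scalZ c).det = c * c := by
  simp [scalZ, Matrix.det_fin_two_of]

theorem adjugate_mul_eq_scalZ (M : Matrix (Fin 2) (Fin 2) ℤ) :
    Matrix.adjugate M * M = scalZ M.det := by
  rw [Matrix.adjugate_mul]
  ext i j
  fin_cases i <;> fin_cases j <;> simp [scalZ]

theorem repGL'_mul_repGL {ℓ : ℕ} (hℓ : ℓ ≠ 0) (r : Option (Fin ℓ)) :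
    repGL' ℓ r * repGL ℓ r = glZ (scalZ (ℓ : ℤ)) := by
  have h2 : (repZ ℓ r).det ≠ 0 := by rw [det_repZ]; exact_mod_cast hℓ
  have h1 : (Matrix.adjugate (repZ ℓ r)).det ≠ 0 := by rwa [det_adjugate_two]
  rw [repGL', repGL, ← glZ_mul h1 h2, adjugate_mul_eq_scalZ, det_repZ]

theorem det_repGL_pos {ℓ : ℕ} (hℓ : ℓ ≠ 0) (r : Option (Fin ℓ)) :
    0 < ((repGL ℓ r).det : ℝ) := by
  have h2 : (repZ ℓ r).det ≠ 0 := by rw [det_repZ]; exact_mod_cast hℓ
  rw [repGL, det_glZ h2, det_repZ]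
  exact_mod_cast Nat.pos_of_ne_zero hℓ

theorem glZ_scalZ_smul {c : ℤ} (hc : 0 < c) (τ : ℍ) : glZ (scalZ c) • τ = τ := by
  have h : (scalZ c).det ≠ 0 := by rw [det_scalZ]; positivity
  have hdet : 0 < ((glZ (scalZ c)).det : ℝ) := by
    rw [det_glZ h, det_scalZ]; exact_mod_cast mul_pos hc hc
  have hc' : (c : ℂ) ≠ 0 := by exact_mod_cast hc.ne'
  apply UpperHalfPlane.ext
  rw [UpperHalfPlane.coe_smul_of_det_pos hdet]
  simp only [UpperHalfPlane.num, UpperHalfPlane.denom, glZ_apply h]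
  simp [scalZ]
  field_simp

theorem slash_glZ_scalZ {c : ℤ} (hc : 0 < c) (f : ℍ → ℂ) :
    f ∣[(2 : ℤ)] glZ (scalZ c) = f := by
  have h : (scalZ c).det ≠ 0 := by rw [det_scalZ]; positivity
  have hdet : 0 < ((glZ (scalZ c)).det : ℝ) := by
    rw [det_glZ h, det_scalZ]; exact_mod_cast mul_pos hc hc
  have hc' : (c : ℂ) ≠ 0 := by exact_mod_cast hc.ne'
  funext τ
  rw [ModularForm.slash_apply, glZ_scalZ_smul hc, UpperHalfPlane.σ, if_pos hdet,
    abs_of_pos hdet, det_glZ h, det_scalZ]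
  simp only [UpperHalfPlane.denom, glZ_apply h]
  simp [scalZ]
  field_simp

end Fermat.Agent.S31.H622
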