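import Fermat.Agent.S31.H622.Chi

/-!
# Row S31, piece SS (helper622) — the Petersson inner product on `S₂(Γ₀(N))`

`petC N f g = ∫_ℍ conj (f τ) g τ (Im τ)² χ(τ) dμ(τ)`, where `χ = chiH N` is the `Γ₀(N)`-partition
of unity and `μ` the hyperbolic measure.  Sesquilinear, positive definite.
-/

set_option autoImplicit false
set_option linter.unusedSectionVars false

open UpperHalfPlane CongruenceSubgroup MeasureTheory
open scoped MatrixGroups ModularForm ComplexConjugate

namespace Fermat.Agent.S31.H622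

/-! ### Pointwise facts on the Petersson integrand -/

theorem norm_petersson_two (f h : ℍ → ℂ) (τ : ℍ) :
    ‖petersson 2 f h τ‖ = ‖f τ‖ * ‖h τ‖ * τ.im ^ 2 := by
  rw [petersson, norm_mul, norm_mul, Complex.norm_conj]
  congr 1
  rw [show ((τ.im : ℂ) ^ (2 : ℤ)) = ((τ.im ^ 2 : ℝ) : ℂ) by push_cast; norm_cast]
  rw [Complex.norm_real, Real.norm_of_nonneg (by positivity)]

theorem norm_petersson_sq (f h : ℍ → ℂ) (τ : ℍ) :
    ‖petersson 2 f h τ‖ ^ 2 = ‖petersson 2 f f τ‖ * ‖petersson 2 h h τ‖ := by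
  rw [norm_petersson_two, norm_petersson_two, norm_petersson_two]
  ring

theorem norm_petersson_slash (f : ℍ → ℂ) (β : GL (Fin 2) ℝ) (τ : ℍ) :
    ‖petersson 2 (f ∣[(2 : ℤ)] β) (f ∣[(2 : ℤ)] β) τ‖ = ‖petersson 2 f f (β • τ)‖ := by
  rw [petersson_slash]
  simp

theorem petersson_add_left (f₁ f₂ h : ℍ → ℂ) (τ : ℍ) :
    petersson 2 (f₁ + f₂) h τ = petersson 2 f₁ h τ + petersson 2 f₂ h τ := by
  simp only [petersson, Pi.add_apply, map_add]
  ring

theorem petersson_add_right (f h₁ h₂ : ℍ → ℂ) (τ : ℍ) :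
    petersson 2 f (h₁ + h₂) τ = petersson 2 f h₁ τ + petersson 2 f h₂ τ := by
  simp only [petersson, Pi.add_apply]
  ring

theorem petersson_smul_left (c : ℂ) (f h : ℍ → ℂ) (τ : ℍ) :
    petersson 2 (c • f) h τ = conj c * petersson 2 f h τ := by
  simp only [petersson, Pi.smul_apply, smul_eq_mul, map_mul]
  ring

theorem petersson_smul_right (c : ℂ) (f h : ℍ → ℂ) (τ : ℍ) :
    petersson 2 f (c • h) τ = c * petersson 2 f h τ := by
  simp only [petersson, Pi.smul_apply, smul_eq_mul]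
  ring

theorem petersson_sum_right {ι : Type*} (s : Finset ι) (f : ℍ → ℂ) (h : ι → ℍ → ℂ) (τ : ℍ) :
    petersson 2 f (∑ i ∈ s, h i) τ = ∑ i ∈ s, petersson 2 f (h i) τ := by
  simp only [petersson, Finset.sum_apply, Finset.mul_sum, Finset.sum_mul]

theorem petersson_sum_left {ι : Type*} (s : Finset ι) (f : ι → ℍ → ℂ) (h : ℍ → ℂ) (τ : ℍ) :
    petersson 2 (∑ i ∈ s, f i) h τ = ∑ i ∈ s, petersson 2 (f i) h τ := by
  simp only [petersson, Finset.sum_apply, map_sum, Finset.sum_mul]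

section

variable (N : ℕ) [NeZero N]

/-! ### Bounds and integrability -/

theorem exists_petersson_self_bound (f : CuspForm (Gamma0 N) 2) :
    ∃ C : ℝ, 0 ≤ C ∧ ∀ τ, ‖petersson 2 f f τ‖ ≤ C := by
  obtain ⟨C, hC⟩ := CuspFormClass.petersson_bounded_left 2 (Gamma0 N) f f
  exact ⟨C, (norm_nonneg _).trans (hC UpperHalfPlane.I), hC⟩

/-- Uniform bound for `petersson 2 (f ∣ α) (g ∣ β)`. -/
theorem exists_petersson_slash_bound (f g : CuspForm (Gamma0 N) 2) :
    ∃ C : ℝ, ∀ (α β : GL (Fin 2) ℝ) (τ : ℍ),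
      ‖petersson 2 ((f : ℍ → ℂ) ∣[(2 : ℤ)] α) ((g : ℍ → ℂ) ∣[(2 : ℤ)] β) τ‖ ≤ C := by
  obtain ⟨C₁, h0₁, hC₁⟩ := exists_petersson_self_bound N f
  obtain ⟨C₂, h0₂, hC₂⟩ := exists_petersson_self_bound N g
  refine ⟨Real.sqrt (C₁ * C₂), fun α β τ => ?_⟩
  refine Real.le_sqrt_of_sq_le ?_
  rw [norm_petersson_sq, norm_petersson_slash, norm_petersson_slash]
  exact mul_le_mul (hC₁ _) (hC₂ _) (norm_nonneg _) h0₁

theorem continuous_slash (f : CuspForm (Gamma0 N) 2) (β : GL (Fin 2) ℝ) :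
    Continuous ((f : ℍ → ℂ) ∣[(2 : ℤ)] β) :=
  ((CuspFormClass.holo f).slash 2 β).continuous

theorem continuous_petersson_slash (f g : CuspForm (Gamma0 N) 2) (α β : GL (Fin 2) ℝ) :
    Continuous (petersson 2 ((f : ℍ → ℂ) ∣[(2 : ℤ)] α) ((g : ℍ → ℂ) ∣[(2 : ℤ)] β)) :=
  petersson_continuous 2 (continuous_slash N f α) (continuous_slash N g β)

theorem integrable_mul_chiH {Φ : ℍ → ℂ} (hc : Continuous Φ) {C : ℝ} (hb : ∀ τ, ‖Φ τ‖ ≤ C) :
    Integrable (fun τ => Φ τ * (chiH N τ : ℂ)) (volume : Measure ℍ) := by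
  have h1 : Integrable (fun τ => (chiH N τ : ℂ)) (volume : Measure ℍ) := (integrable_chiH N).ofReal
  exact h1.bdd_mul hc.aestronglyMeasurable (Filter.Eventually.of_forall hb)

theorem slash_one_coe (f : CuspForm (Gamma0 N) 2) :
    (f : ℍ → ℂ) ∣[(2 : ℤ)] (1 : GL (Fin 2) ℝ) = f := SlashAction.slash_one _ _

theorem exists_petersson_bound (f g : CuspForm (Gamma0 N) 2) :
    ∃ C : ℝ, ∀ τ : ℍ, ‖petersson 2 f g τ‖ ≤ C := by
  obtain ⟨C, hC⟩ := exists_petersson_slash_bound N f g
  refine ⟨C, fun τ => ?_⟩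
  have := hC 1 1 τ
  rwa [slash_one_coe, slash_one_coe] at this

theorem integrable_petersson_mul_chiH (f g : CuspForm (Gamma0 N) 2) :
    Integrable (fun τ => petersson 2 f g τ * (chiH N τ : ℂ)) (volume : Measure ℍ) := by
  obtain ⟨C, hC⟩ := exists_petersson_bound N f g
  exact integrable_mul_chiH N
    (petersson_continuous 2 (ModularFormClass.continuous f) (ModularFormClass.continuous g)) hC

/-! ### The Petersson product -/

/-- The Petersson inner product on `S₂(Γ₀(N))` (conjugate-linear in the first variable). -/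
noncomputable def petC (f g : CuspForm (Gamma0 N) 2) : ℂ :=
  ∫ τ : ℍ, petersson 2 f g τ * (chiH N τ : ℂ)

theorem petC_add_left (f₁ f₂ g : CuspForm (Gamma0 N) 2) :
    petC N (f₁ + f₂) g = petC N f₁ g + petC N f₂ g := by
  unfold petC
  rw [← integral_add (integrable_petersson_mul_chiH N f₁ g) (integrable_petersson_mul_chiH N f₂ g)]
  refine integral_congr_ae (Filter.Eventually.of_forall fun τ => ?_)
  simp only [FunLike.coe_add, petersson_add_left]
  ring

theorem petC_add_right (f g₁ g₂ : CuspForm (Gamma0 N) 2) :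
    petC N f (g₁ + g₂) = petC N f g₁ + petC N f g₂ := by
  unfold petC
  rw [← integral_add (integrable_petersson_mul_chiH N f g₁) (integrable_petersson_mul_chiH N f g₂)]
  refine integral_congr_ae (Filter.Eventually.of_forall fun τ => ?_)
  simp only [FunLike.coe_add, petersson_add_right]
  ring

theorem petC_smul_left (c : ℂ) (f g : CuspForm (Gamma0 N) 2) :
    petC N (c • f) g = conj c * petC N f g := by
  unfold petC
  rw [← integral_const_mul]
  refine integral_congr_ae (Filter.Eventually.of_forall fun τ => ?_)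
  simp only [FunLike.coe_smul, petersson_smul_left]
  ring

theorem petC_smul_right (c : ℂ) (f g : CuspForm (Gamma0 N) 2) :
    petC N f (c • g) = c * petC N f g := by
  unfold petC
  rw [← integral_const_mul]
  refine integral_congr_ae (Filter.Eventually.of_forall fun τ => ?_)
  simp only [FunLike.coe_smul, petersson_smul_right]
  ring

/-- Positive definiteness. -/
theorem eq_zero_of_petC_self_eq_zero (f : CuspForm (Gamma0 N) 2) (h : petC N f f = 0) : f = 0 := by
  set F : ℍ → ℝ := fun τ => ‖f τ‖ ^ 2 * τ.im ^ 2 * chiH N τ with hF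
  have hpt : ∀ τ, petersson 2 f f τ * (chiH N τ : ℂ) = ((F τ : ℝ) : ℂ) := by
    intro τ
    simp only [hF, petersson]
    push_cast
    rw [← Complex.conj_mul', zpow_ofNat]
  have hFi : Integrable F (volume : Measure ℍ) := by
    have h1 := (integrable_petersson_mul_chiH N f f).re
    refine h1.congr (Filter.Eventually.of_forall fun τ => ?_)
    show (petersson 2 (⇑f) (⇑f) τ * ↑(chiH N τ)).re = F τ
    rw [hpt]
    exact Complex.ofReal_re _
  have hFc : Continuous F := by
    have hc : Continuous (f : ℍ → ℂ) := ModularFormClass.continuous f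
    exact ((hc.norm.pow 2).mul (UpperHalfPlane.continuous_im.pow 2)).mul (continuous_chiH N)
  have hF0 : ∀ τ, 0 ≤ F τ := fun τ =>
    mul_nonneg (mul_nonneg (sq_nonneg _) (sq_nonneg _)) (chiH_nonneg N τ)
  have hint : ∫ τ, F τ = 0 := by
    have h2 : petC N f f = ((∫ τ, F τ : ℝ) : ℂ) := by
      unfold petC
      rw [integral_congr_ae (Filter.Eventually.of_forall hpt)]
      exact integral_ofReal
    rw [h2] at h
    exact_mod_cast h
  have hzero := eq_zero_of_integral_eq_zero hFc hF0 hFi hint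
  ext τ
  obtain ⟨γ, hγ⟩ := exists_chiH_pos N τ
  have h3 := hzero ((γ : SL(2, ℤ)) • τ)
  simp only [hF] at h3
  have h4 : ‖f ((γ : SL(2, ℤ)) • τ)‖ ^ 2 * ((γ : SL(2, ℤ)) • τ).im ^ 2 = 0 := by
    rcases mul_eq_zero.mp h3 with h | h
    · exact h
    · exact absurd h hγ.ne'
  have h5 : f ((γ : SL(2, ℤ)) • τ) = 0 := by
    rcases mul_eq_zero.mp h4 with h | h
    · simpa using h
    · exact absurd (pow_eq_zero_iff (two_ne_zero)|>.mp h) (UpperHalfPlane.im_ne_zero _)
  have h6 := SlashInvariantForm.slash_action_eqn_SL'' f γ.2 τ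
  rw [h5] at h6
  have h7 : denom ((γ : SL(2, ℤ)) : GL (Fin 2) ℝ) τ ^ (2 : ℤ) ≠ 0 :=
    zpow_ne_zero _ (denom_ne_zero _ _)
  rcases mul_eq_zero.mp h6.symm with h | h
  · exact absurd h h7
  · simpa using h

end

end Fermat.Agent.S31.H622
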