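import Fermat.Agent.S31.H622.Unfold
import Fermat.Agent.S31.H622.Alg

/-!
# Row S31, piece SS (helper622) — `T_ℓ` is self-adjoint for the Petersson product (`ℓ ∤ N`)

and the final statement: the Hecke algebra away from `S ⊇ {primes of N}` is reduced.
-/

set_option autoImplicit false
set_option linter.unusedSectionVars false

open UpperHalfPlane CongruenceSubgroup MeasureTheory Matrix.SpecialLinearGroup
open scoped MatrixGroups ModularForm ComplexConjugate

namespace Fermat.Agent.S31.H622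

theorem hasSum_prod_of_fintype {ι κ : Type*} [Fintype ι] {f : ι × κ → ℂ} {a : ι → ℂ}
    (h : ∀ i, HasSum (fun k => f (i, k)) (a i)) : HasSum f (∑ i, a i) := by
  classical
  have h1 : ∀ i ∈ (Finset.univ : Finset ι),
      HasSum (fun p : ι × κ => if p.1 = i then f p else 0) (a i) := by
    intro i _
    have hinj : Function.Injective (fun k : κ => ((i, k) : ι × κ)) := fun k k' hk => by
      simpa using hk
    refine (hinj.hasSum_iff ?_).mp ?_
    · rintro ⟨i', k⟩ hp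
      have : i' ≠ i := by
        rintro rfl
        exact hp ⟨k, rfl⟩
      simp [this]
    · have : ((fun p : ι × κ => if p.1 = i then f p else 0) ∘ fun k : κ => ((i, k) : ι × κ))
          = fun k => f (i, k) := by
        funext k
        simp
      rw [this]
      exact h i
  have h2 := hasSum_sum h1
  have h3 : (fun p : ι × κ => ∑ i ∈ (Finset.univ : Finset ι), if p.1 = i then f p else 0) = f := by
    funext p
    simp
  rwa [h3] at h2

/-- `heckeT 2 ℓ f = ∑_r f ∣ repGL ℓ r`. -/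
theorem heckeT_eq_sum_rep {ℓ : ℕ} (hℓ : ℓ ≠ 0) (f : ℍ → ℂ) :
    ModularForm.heckeT 2 ℓ f = ∑ r : Option (Fin ℓ), f ∣[(2 : ℤ)] repGL ℓ r := by
  rw [ModularForm.heckeT_def, Fintype.sum_option, add_comm]
  congr 1
  · rw [repGL, glZ_repZ_none hℓ]
  · rw [Finset.sum_range]
    refine Finset.sum_congr rfl fun j _ => ?_
    rw [repGL, glZ_repZ_some hℓ]

variable (N : ℕ) [NeZero N]

theorem hasSum_petC_heckeT_right {ℓ : ℕ} (hℓ : ℓ.Prime) (hℓN : ¬ ℓ ∣ N)
    (f g : CuspForm (Gamma0 N) 2) :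
    HasSum (fun p : Option (Fin ℓ) × Gamma0 N => kerA N f g (glZ (PhiD N ℓ p).val))
      (petC N f (CuspForm.heckeTLin 2 hℓ hℓN g)) := by
  have h1 : petC N f (CuspForm.heckeTLin 2 hℓ hℓN g) =
      ∑ r : Option (Fin ℓ),
        ∫ u, petersson 2 f ((g : ℍ → ℂ) ∣[(2 : ℤ)] repGL ℓ r) u * (chiH N u : ℂ) := by
    unfold petC
    rw [← integral_finsetSum _ fun r _ => by
      have := integrable_petersson_slash_mul_chiH N f g 1 (repGL ℓ r)
      rwa [slash_one_coe] at this]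
    refine integral_congr_ae (Filter.Eventually.of_forall fun u => ?_)
    show petersson 2 f (⇑(CuspForm.heckeTLin 2 hℓ hℓN g)) u * (chiH N u : ℂ) = _
    rw [CuspForm.coe_heckeTLin_apply, heckeT_eq_sum_rep hℓ.ne_zero, petersson_sum_right,
      Finset.sum_mul]
  rw [h1]
  refine hasSum_prod_of_fintype fun r => ?_
  have h2 := hasSum_kerA_left N f g (repGL ℓ r)
  have h3 : (fun γ : Gamma0 N => kerA N f g (glZ (PhiD N ℓ (r, γ)).val)) =
      fun γ : Gamma0 N => kerA N f g (mapGL ℝ (γ : SL(2, ℤ)) * repGL ℓ r) := by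
    funext γ
    rw [glZ_PhiD N hℓ.ne_zero]
  rw [h3]
  exact h2

theorem hasSum_petC_heckeT_left {ℓ : ℕ} (hℓ : ℓ.Prime) (hℓN : ¬ ℓ ∣ N)
    (f g : CuspForm (Gamma0 N) 2) :
    HasSum (fun p : Option (Fin ℓ) × Gamma0 N =>
        kerA N f g (glZ (adjD N ℓ (PhiD N ℓ p)).val))
      (petC N (CuspForm.heckeTLin 2 hℓ hℓN f) g) := by
  have hℓpos : (0 : ℤ) < (ℓ : ℤ) := by exact_mod_cast hℓ.pos
  have h1 : petC N (CuspForm.heckeTLin 2 hℓ hℓN f) g =
      ∑ r : Option (Fin ℓ),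
        ∫ u, petersson 2 f ((g : ℍ → ℂ) ∣[(2 : ℤ)] repGL' ℓ r) u
          * (chiH N (repGL' ℓ r • u) : ℂ) := by
    have h0 : petC N (CuspForm.heckeTLin 2 hℓ hℓN f) g =
      ∑ r : Option (Fin ℓ),
        ∫ u, petersson 2 ((f : ℍ → ℂ) ∣[(2 : ℤ)] repGL ℓ r) g u * (chiH N u : ℂ) := by
      unfold petC
      rw [← integral_finsetSum _ fun r _ => by
        have := integrable_petersson_slash_mul_chiH N f g (repGL ℓ r) 1
        rwa [slash_one_coe] at this]
      refine integral_congr_ae (Filter.Eventually.of_forall fun u => ?_)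
      show petersson 2 (⇑(CuspForm.heckeTLin 2 hℓ hℓN f)) g u * (chiH N u : ℂ) = _
      rw [CuspForm.coe_heckeTLin_apply, heckeT_eq_sum_rep hℓ.ne_zero, petersson_sum_left,
        Finset.sum_mul]
    rw [h0]
    refine Finset.sum_congr rfl fun r _ => ?_
    refine integral_petersson_slash_left N f g (repGL ℓ r) (repGL' ℓ r)
      (det_repGL_pos hℓ.ne_zero r) (fun τ => ?_) (fun F => ?_)
    · rw [repGL'_mul_repGL hℓ.ne_zero, glZ_scalZ_smul hℓpos]
    · rw [repGL'_mul_repGL hℓ.ne_zero, slash_glZ_scalZ hℓpos]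
  rw [h1]
  refine hasSum_prod_of_fintype fun r => ?_
  have h2 := hasSum_kerA_right N f g (repGL' ℓ r)
  have h3 : (fun γ : Gamma0 N => kerA N f g (glZ (adjD N ℓ (PhiD N ℓ (r, γ))).val)) =
      fun γ : Gamma0 N => kerA N f g (repGL' ℓ r * (mapGL ℝ (γ : SL(2, ℤ)))⁻¹) := by
    funext γ
    rw [glZ_adjD_PhiD N hℓ.ne_zero]
  rw [h3]
  exact h2

/-- **`T_ℓ` is self-adjoint** for the Petersson product (`ℓ` prime, `ℓ ∤ N`). -/
theorem isPetSymm_heckeTLin {ℓ : ℕ} (hℓ : ℓ.Prime) (hℓN : ¬ ℓ ∣ N) :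
    IsPetSymm N (CuspForm.heckeTLin 2 hℓ hℓN) := by
  intro f g
  have hL := hasSum_petC_heckeT_left N hℓ hℓN f g
  have hR := hasSum_petC_heckeT_right N hℓ hℓN f g
  let e : Option (Fin ℓ) × Gamma0 N ≃ DSet N ℓ :=
    Equiv.ofBijective (PhiD N ℓ) (PhiD_bijective N hℓ hℓN)
  have hL' : HasSum (fun δ : DSet N ℓ => kerA N f g (glZ (adjD N ℓ δ).val))
      (petC N (CuspForm.heckeTLin 2 hℓ hℓN f) g) :=
    (e.hasSum_iff (f := fun δ : DSet N ℓ => kerA N f g (glZ (adjD N ℓ δ).val))).mp hL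
  have hR' : HasSum (fun δ : DSet N ℓ => kerA N f g (glZ δ.val))
      (petC N f (CuspForm.heckeTLin 2 hℓ hℓN g)) :=
    (e.hasSum_iff (f := fun δ : DSet N ℓ => kerA N f g (glZ δ.val))).mp hR
  have hL'' : HasSum (fun δ : DSet N ℓ => kerA N f g (glZ δ.val))
      (petC N (CuspForm.heckeTLin 2 hℓ hℓN f) g) :=
    ((adjDEquiv N ℓ).hasSum_iff (f := fun δ : DSet N ℓ => kerA N f g (glZ δ.val))).mp hL'
  exact hL''.unique hR'

/-- **Piece SS of row S31**: the Hecke algebra away from `S ⊇ {primes of N}` is reduced. -/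
theorem heckeAlgebra_isReduced (N : ℕ) [NeZero N] (S : Set ℕ)
    (hNS : ∀ q : ℕ, q.Prime → q ∣ N → q ∈ S) : IsReduced (CuspForm.heckeAlgebra N 2 S) :=
  isReduced_of_selfAdjoint N S hNS fun _ hℓ hℓN => isPetSymm_heckeTLin N hℓ hℓN

end Fermat.Agent.S31.H622
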