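import Fermat.Agent.S31.H622.Pet
import Fermat.Agent.S31.H622.CosetGL

/-!
# Row S31, piece SS (helper622) — unfolding integrals along the partition of unity
-/

set_option autoImplicit false
set_option linter.unusedSectionVars false

open UpperHalfPlane CongruenceSubgroup MeasureTheory Matrix.SpecialLinearGroup
open scoped MatrixGroups ModularForm ComplexConjugate

namespace Fermat.Agent.S31.H622

variable (N : ℕ) [NeZero N]

theorem hasSum_chiH_gl (τ : ℍ) :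
    HasSum (fun γ : Gamma0 N => chiH N (mapGL ℝ (γ : SL(2, ℤ)) • τ)) 1 :=
  hasSum_chiH N τ

theorem sum_chiH_gl_le_one (s : Finset (Gamma0 N)) (τ : ℍ) :
    ∑ γ ∈ s, chiH N (mapGL ℝ (γ : SL(2, ℤ)) • τ) ≤ 1 :=
  sum_chiH_le_one N s τ

theorem measurable_chiH_smul (β : GL (Fin 2) ℝ) {φ : ℍ → ℍ} (hφ : Measurable φ) :
    Measurable fun u => (chiH N (β • φ u) : ℂ) :=
  Complex.measurable_ofReal.comp ((measurable_chiH N).comp ((measurable_const_smul β).comp hφ))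

theorem norm_chiH_le (τ : ℍ) : ‖(chiH N τ : ℂ)‖ ≤ 1 := by
  rw [Complex.norm_real]
  exact abs_chiH_le N τ

/-- **Unfolding**: `∫ F = ∑_γ ∫ F(u) χ(γ φ(u)) du`. -/
theorem hasSum_integral_mul_chiH {F : ℍ → ℂ} (hF : Integrable F (volume : Measure ℍ))
    {φ : ℍ → ℍ} (hφ : Measurable φ) :
    HasSum (fun γ : Gamma0 N => ∫ u, F u * (chiH N (mapGL ℝ (γ : SL(2, ℤ)) • φ u) : ℂ))
      (∫ u, F u) := by
  have hint : ∀ γ : Gamma0 N,
      Integrable (fun u => F u * (chiH N (mapGL ℝ (γ : SL(2, ℤ)) • φ u) : ℂ))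
        (volume : Measure ℍ) := fun γ =>
    hF.mul_bdd (c := 1) (measurable_chiH_smul N _ hφ).aestronglyMeasurable
      (Filter.Eventually.of_forall fun u => norm_chiH_le N _)
  have hsum : Summable (fun γ : Gamma0 N =>
      ∫ u, ‖F u * (chiH N (mapGL ℝ (γ : SL(2, ℤ)) • φ u) : ℂ)‖) := by
    refine summable_of_sum_le (c := ∫ u, ‖F u‖)
      (fun γ => integral_nonneg fun u => norm_nonneg _) (fun s => ?_)
    rw [← integral_finsetSum s (fun γ _ => (hint γ).norm)]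
    refine integral_mono (integrable_finsetSum s fun γ _ => (hint γ).norm) hF.norm (fun u => ?_)
    simp only [norm_mul, Complex.norm_real, Real.norm_of_nonneg (chiH_nonneg N _)]
    rw [← Finset.mul_sum]
    exact mul_le_of_le_one_right (norm_nonneg _) (sum_chiH_gl_le_one N s (φ u))
  have h := hasSum_integral_of_summable_integral_norm hint hsum
  have heq : ∫ u, ∑' γ : Gamma0 N, F u * (chiH N (mapGL ℝ (γ : SL(2, ℤ)) • φ u) : ℂ)
      = ∫ u, F u := by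
    refine integral_congr_ae (Filter.Eventually.of_forall fun u => ?_)
    show ∑' γ : Gamma0 N, F u * (chiH N (mapGL ℝ (γ : SL(2, ℤ)) • φ u) : ℂ) = F u
    rw [tsum_mul_left, (Complex.hasSum_ofReal.mpr (hasSum_chiH_gl N (φ u))).tsum_eq]
    simp
  rwa [heq] at h

/-! ### The kernel `A` and the two unfoldings -/

/-- The kernel `A(β) = ∫ P(f, g∣β)(u) χ(βu) χ(u) dμ(u)`. -/
noncomputable def kerA (f g : ℍ → ℂ) (β : GL (Fin 2) ℝ) : ℂ :=
  ∫ u : ℍ, petersson 2 f (g ∣[(2 : ℤ)] β) u * (chiH N (β • u) : ℂ) * (chiH N u : ℂ)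

theorem petersson_smul_eq (f h : ℍ → ℂ) (δ : GL (Fin 2) ℝ) (hδ : 0 < (δ.det : ℝ)) (v : ℍ) :
    petersson 2 f h (δ • v) = petersson 2 (f ∣[(2 : ℤ)] δ) (h ∣[(2 : ℤ)] δ) v := by
  rw [petersson_slash, UpperHalfPlane.σ, if_pos hδ]
  simp

theorem slash_mapGL (f : CuspForm (Gamma0 N) 2) (γ : Gamma0 N) :
    (f : ℍ → ℂ) ∣[(2 : ℤ)] (mapGL ℝ (γ : SL(2, ℤ))) = f :=
  SlashInvariantForm.slash_action_eqn f _ (Subgroup.mem_map_of_mem _ γ.2)

theorem slash_mapGL_inv (f : CuspForm (Gamma0 N) 2) (γ : Gamma0 N) :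
    (f : ℍ → ℂ) ∣[(2 : ℤ)] (mapGL ℝ (γ : SL(2, ℤ)))⁻¹ = f := by
  have h := slash_mapGL N f γ⁻¹
  rwa [Subgroup.coe_inv, map_inv] at h

theorem det_mapGL_pos (γ : SL(2, ℤ)) : 0 < ((mapGL ℝ γ).det : ℝ) := by
  simp

theorem det_mapGL_inv_pos (γ : SL(2, ℤ)) : 0 < (((mapGL ℝ γ)⁻¹).det : ℝ) := by
  rw [← map_inv]
  exact det_mapGL_pos _

theorem integrable_petersson_slash_mul_chiH (f g : CuspForm (Gamma0 N) 2) (α β : GL (Fin 2) ℝ) :
    Integrable (fun u => petersson 2 ((f : ℍ → ℂ) ∣[(2 : ℤ)] α) ((g : ℍ → ℂ) ∣[(2 : ℤ)] β) u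
      * (chiH N u : ℂ)) (volume : Measure ℍ) := by
  obtain ⟨C, hC⟩ := exists_petersson_slash_bound N f g
  exact integrable_mul_chiH N (continuous_petersson_slash N f g α β) (hC α β)

theorem integrable_petersson_slash_mul_chiH_smul (f g : CuspForm (Gamma0 N) 2)
    (α β δ : GL (Fin 2) ℝ) :
    Integrable (fun u => petersson 2 ((f : ℍ → ℂ) ∣[(2 : ℤ)] α) ((g : ℍ → ℂ) ∣[(2 : ℤ)] β) u
      * (chiH N (δ • u) : ℂ)) (volume : Measure ℍ) := by
  obtain ⟨C, hC⟩ := exists_petersson_slash_bound N f g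
  have h1 : Integrable (fun u => (chiH N (δ • u) : ℂ)) (volume : Measure ℍ) :=
    (integrable_comp_smul (integrable_chiH N) δ).ofReal
  exact h1.bdd_mul (continuous_petersson_slash N f g α β).aestronglyMeasurable
    (Filter.Eventually.of_forall (hC α β))

/-- `K(β) = ∑_γ A(γ β)`. -/
theorem hasSum_kerA_left (f g : CuspForm (Gamma0 N) 2) (β : GL (Fin 2) ℝ) :
    HasSum (fun γ : Gamma0 N => kerA N f g (mapGL ℝ (γ : SL(2, ℤ)) * β))
      (∫ u, petersson 2 f ((g : ℍ → ℂ) ∣[(2 : ℤ)] β) u * (chiH N u : ℂ)) := by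
  have hF : Integrable (fun u => petersson 2 f ((g : ℍ → ℂ) ∣[(2 : ℤ)] β) u * (chiH N u : ℂ))
      (volume : Measure ℍ) := by
    have := integrable_petersson_slash_mul_chiH N f g 1 β
    rwa [slash_one_coe] at this
  have h := hasSum_integral_mul_chiH N hF (φ := fun u => β • u) (measurable_const_smul β)
  have heq : (fun γ : Gamma0 N => kerA N f g (mapGL ℝ (γ : SL(2, ℤ)) * β)) =
      fun γ : Gamma0 N => ∫ u, petersson 2 f ((g : ℍ → ℂ) ∣[(2 : ℤ)] β) u * (chiH N u : ℂ)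
        * (chiH N (mapGL ℝ (γ : SL(2, ℤ)) • β • u) : ℂ) := by
    funext γ
    unfold kerA
    refine integral_congr_ae (Filter.Eventually.of_forall fun u => ?_)
    show petersson 2 f ((g : ℍ → ℂ) ∣[(2 : ℤ)] (mapGL ℝ (γ : SL(2, ℤ)) * β)) u
        * (chiH N ((mapGL ℝ (γ : SL(2, ℤ)) * β) • u) : ℂ) * (chiH N u : ℂ) = _
    rw [SlashAction.slash_mul, slash_mapGL, mul_smul]
    ring
  rw [heq]
  exact h

/-- `J(β) = ∑_γ A(β γ⁻¹)`. -/
theorem hasSum_kerA_right (f g : CuspForm (Gamma0 N) 2) (β : GL (Fin 2) ℝ) :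
    HasSum (fun γ : Gamma0 N => kerA N f g (β * (mapGL ℝ (γ : SL(2, ℤ)))⁻¹))
      (∫ u, petersson 2 f ((g : ℍ → ℂ) ∣[(2 : ℤ)] β) u * (chiH N (β • u) : ℂ)) := by
  have hF : Integrable (fun u => petersson 2 f ((g : ℍ → ℂ) ∣[(2 : ℤ)] β) u
      * (chiH N (β • u) : ℂ)) (volume : Measure ℍ) := by
    have := integrable_petersson_slash_mul_chiH_smul N f g 1 β β
    rwa [slash_one_coe] at this
  have h := hasSum_integral_mul_chiH N hF (φ := fun u => u) measurable_id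
  have heq : (fun γ : Gamma0 N => kerA N f g (β * (mapGL ℝ (γ : SL(2, ℤ)))⁻¹)) =
      fun γ : Gamma0 N => ∫ u, petersson 2 f ((g : ℍ → ℂ) ∣[(2 : ℤ)] β) u * (chiH N (β • u) : ℂ)
        * (chiH N (mapGL ℝ (γ : SL(2, ℤ)) • u) : ℂ) := by
    funext γ
    unfold kerA
    rw [← integral_smul_eq_self (μ := (volume : Measure ℍ))
      (fun u => petersson 2 f ((g : ℍ → ℂ) ∣[(2 : ℤ)] β) u * (chiH N (β • u) : ℂ)
        * (chiH N (mapGL ℝ (γ : SL(2, ℤ)) • u) : ℂ)) (g := (mapGL ℝ (γ : SL(2, ℤ)))⁻¹)]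
    refine integral_congr_ae (Filter.Eventually.of_forall fun v => ?_)
    show petersson 2 f ((g : ℍ → ℂ) ∣[(2 : ℤ)] (β * (mapGL ℝ (γ : SL(2, ℤ)))⁻¹)) v
        * (chiH N ((β * (mapGL ℝ (γ : SL(2, ℤ)))⁻¹) • v) : ℂ) * (chiH N v : ℂ) =
      petersson 2 f ((g : ℍ → ℂ) ∣[(2 : ℤ)] β) ((mapGL ℝ (γ : SL(2, ℤ)))⁻¹ • v)
        * (chiH N (β • (mapGL ℝ (γ : SL(2, ℤ)))⁻¹ • v) : ℂ)
        * (chiH N (mapGL ℝ (γ : SL(2, ℤ)) • (mapGL ℝ (γ : SL(2, ℤ)))⁻¹ • v) : ℂ)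
    rw [petersson_smul_eq _ _ _ (det_mapGL_inv_pos _), slash_mapGL_inv, ← SlashAction.slash_mul,
      mul_smul, smul_inv_smul]
  rw [heq]
  exact h

/-- Moving a slash from the left to the right variable. -/
theorem integral_petersson_slash_left (f g : CuspForm (Gamma0 N) 2) (μ μ' : GL (Fin 2) ℝ)
    (hμ : 0 < (μ.det : ℝ)) (h1 : ∀ τ : ℍ, (μ' * μ) • τ = τ)
    (h2 : ∀ F : ℍ → ℂ, F ∣[(2 : ℤ)] (μ' * μ) = F) :
    ∫ τ, petersson 2 ((f : ℍ → ℂ) ∣[(2 : ℤ)] μ) g τ * (chiH N τ : ℂ) =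
      ∫ u, petersson 2 f ((g : ℍ → ℂ) ∣[(2 : ℤ)] μ') u * (chiH N (μ' • u) : ℂ) := by
  rw [← integral_smul_eq_self (μ := (volume : Measure ℍ))
      (fun u => petersson 2 f ((g : ℍ → ℂ) ∣[(2 : ℤ)] μ') u * (chiH N (μ' • u) : ℂ)) (g := μ)]
  refine integral_congr_ae (Filter.Eventually.of_forall fun τ => ?_)
  show petersson 2 ((f : ℍ → ℂ) ∣[(2 : ℤ)] μ) g τ * (chiH N τ : ℂ) =
    petersson 2 f ((g : ℍ → ℂ) ∣[(2 : ℤ)] μ') (μ • τ) * (chiH N (μ' • μ • τ) : ℂ)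
  rw [petersson_smul_eq _ _ _ hμ, ← SlashAction.slash_mul, h2, ← mul_smul, h1]

end Fermat.Agent.S31.H622
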